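/-
S26 / route B : ADAPTER from the nodes of the common base (helper86) to contract S.
-/
import Fermat.Agent.S26.E.Adapter

set_option autoImplicit false

universe u

open CategoryTheory CategoryTheory.Limits AlgebraicGeometry NeronModelInfra GoodReductionJacobian

namespace Fermat.Agent.S26.S

/-- `CurveGen` is stable under pull-back of points. -/
theorem curveGen_comp {K : Type u} [Field K] {A : Scheme.{u}} (f : A ⟶ SpK K)
    (L : RelativeGroupLaw K f) {T T' : Scheme.{u}} (t : T ⟶ SpK K) (t' : T' ⟶ SpK K)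
    (ψ : T' ⟶ T) (hψ : ψ ≫ t = t') (x : SchemeHomOver t f) (hx : CurveGen K f L t x) :
    CurveGen K f L t' (schemeHomOverComp ψ hψ x) := by
  induction hx with
  | one =>
    rw [L.one_natural t t' ψ hψ]
    exact CurveGen.one
  | mul x y _ _ ihx ihy =>
    rw [L.mul_natural t t' ψ hψ]
    exact CurveGen.mul _ _ ihx ihy
  | curve c o γ hγ p =>
    have h : schemeHomOverComp ψ hψ (compPt K f p γ) =
        compPt K f (schemeHomOverComp ψ hψ p) γ := by
      apply Subtype.ext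
      show ψ ≫ p.1 ≫ γ.1 = (ψ ≫ p.1) ≫ γ.1
      rw [Category.assoc]
    rw [h]
    exact CurveGen.curve c o γ hγ _

/-- one step: adding a curve preserves `CurveGen` -/
private theorem curveGen_cons {K : Type u} [Field K] (𝔸 : AbVar K) (C : Curve 𝔸) (B : Based 𝔸)
    (hB : CurveGen K 𝔸.f 𝔸.L B.w B.τ) :
    CurveGen K 𝔸.f 𝔸.L (C.cons 1 B).w (C.cons 1 B).τ := by
  have hτ : (C.cons 1 B).τ = 𝔸.L.mul (C.cons 1 B).w
      (schemeHomOverComp (pullback.fst C.c B.w) rfl C.ι)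
      (schemeHomOverComp (pullback.snd C.c B.w) pullback.condition.symm B.τ) := by
    show (AbVar.Pt.comp (pullback.fst C.c B.w) rfl C.ι) ^ (1 : ℤ) *
      AbVar.Pt.comp (pullback.snd C.c B.w) pullback.condition.symm B.τ = _
    rw [zpow_one]
    rfl
  rw [hτ]
  refine CurveGen.mul _ _ ?_ (curveGen_comp 𝔸.f 𝔸.L _ _ _ _ _ hB)
  have hγ : C.ε.1 ≫ (C.ι : SchemeHomOver C.c 𝔸.f).1 = (𝔸.L.one (𝟙 (SpK K))).1 :=
    congrArg Subtype.val C.ι_ε
  have h := CurveGen.curve (K := K) (f := 𝔸.f) (L := 𝔸.L) (t := (C.cons 1 B).w) C.c C.ε C.ι hγ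
    ⟨pullback.fst C.c B.w, rfl⟩
  exact h

/-- the iteration -/
private theorem exists_good {K : Type u} [Field K] (𝔸 : AbVar K) (l : List (Curve 𝔸)) :
    ∀ B : Based 𝔸, AllGood {m : ℤ | (m : K) ≠ 0} l B → CurveGen K 𝔸.f 𝔸.L B.w B.τ →
      ∃ B' : Based 𝔸, B'.Good ∧ CurveGen K 𝔸.f 𝔸.L B'.w B'.τ := by
  induction l with
  | nil =>
    intro B hB hg
    exact ⟨B, (allGood_nil _ B).1 hB, hg⟩
  | cons C l ih =>
    intro B hB hg
    exact ih (C.cons 1 B) ((allGood_cons _ C l B).1 hB 1 (by simp)) (curveGen_cons 𝔸 C B hg)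

/-- **Adapter S.** -/
theorem nonempty_coverData_of_nodes {K : Type u} [Field K] (𝔸 : AbVar K) (g : ℕ)
    (hC : CurvesNode 𝔸 g) (hEP : EtalePosNode.{u}) : Nonempty (CoverData K 𝔸.f 𝔸.L) := by
  obtain ⟨l, -, hl⟩ := hC
  obtain ⟨B, hgood, hgen⟩ := exists_good 𝔸 l (Based.point 𝔸) hl CurveGen.one
  obtain ⟨hdom, hpos⟩ := hEP B.τ.hom B.pt₀ hgood
  have hdom' : B.τ.hom (genericPoint B.W) = genericPoint 𝔸.A := hdom
  refine ⟨{ X := B.W, x := B.w, s := B.τ, gen := hgen, σ := ffMap B.τ.hom hdom',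
            isFn := E.isFnMap_ffMap B.τ.hom hdom', finite := ?_ }⟩
  rw [gdeg, dif_pos hdom'] at hpos
  let _ := (ffMap B.τ.hom hdom').toAlgebra
  exact RingHom.finite_algebraMap.2 (Module.finite_of_finrank_pos hpos)

end Fermat.Agent.S26.S
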