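/-
S26 / blocks C + S : CONTRACT (a product of curves dominating `A`), wired to the common base
(blocks CURVES, GOOD, DEG).
-/
import Fermat.Agent.S26.S.Adapter
import Fermat.Agent.S26.Curves.Main
import Fermat.Agent.S26.Good.Main
import Fermat.Agent.S26.Deg.Main

set_option autoImplicit false

universe u

open CategoryTheory CategoryTheory.Limits AlgebraicGeometry NeronModelInfra GoodReductionJacobian

namespace Fermat.Agent.S26.S

/-- **Contract S.** -/
theorem nonempty_coverData {K : Type u} [Field K] [IsAlgClosed K] {A : Scheme.{u}} (f : A ⟶ SpK K)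
    (L : RelativeGroupLaw K f) (hc : L.IsCommutative) (hA : AbelianSchemePropertyBundle K f)
    [IsIntegral A] (g : ℕ) [SmoothOfRelativeDimension g f] :
    Nonempty (CoverData K f L) := by
  have := hA.proper
  have := hA.smooth
  let 𝔸 : AbVar K := { A := A, f := f, L := L, comm := hc }
  have : SmoothOfRelativeDimension g 𝔸.f := ‹SmoothOfRelativeDimension g f›
  obtain ⟨S⟩ := Curves.systemNode 𝔸 g
  exact nonempty_coverData_of_nodes 𝔸 g (Good.goodNode 𝔸 g S) Deg.etalePosNode

end Fermat.Agent.S26.S
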